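import Mathlib
import Fermat.Prelude.Def_ExtCitation_KummerBridge
import Fermat.Prelude.Def_EllipticCurve_FrobeniusTrace
import Fermat.Prelude.Def_GaloisRep_Residual

/-!
# GR / Asm : the mod `p` cyclotomic character at Frobenius and inertia elements
-/

set_option autoImplicit false

namespace Fermat.Agent.GR.Asm

open ExtCitation ValuationSubring

local notation "Qbar" => AlgebraicClosure ℚ
local notation "GQ" => (AlgebraicClosure ℚ ≃ₐ[ℚ] AlgebraicClosure ℚ)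

/-- Elements of the inertia group stabilise `A` and act trivially modulo the maximal ideal. -/
theorem inertia_spec (A : ValuationSubring Qbar) (σ : GQ)
    (hσ : σ ∈ A.inertiaSubgroupIn ℚ) :
    (∀ a : Qbar, a ∈ A → σ a ∈ A) ∧ (∀ a : Qbar, a ∈ A → σ a - a ∈ A.nonunits) := by
  obtain ⟨τ, hτ, rfl⟩ := hσ
  have hmem : ∀ a : Qbar, a ∈ A → (τ : GQ) a ∈ A := by
    intro a ha
    exact ((A.subMulAction ℚ).smul_mem τ ha)
  refine ⟨hmem, ?_⟩
  intro a ha
  have h1 : MulSemiringAction.toRingAut (A.decompositionSubgroup ℚ)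
      (IsLocalRing.ResidueField A) τ = 1 := hτ
  have h2 := congrArg (fun f => f (IsLocalRing.residue A ⟨a, ha⟩)) h1
  simp only [RingAut.one_apply] at h2
  have h3 : IsLocalRing.residue A (τ • (⟨a, ha⟩ : A)) = IsLocalRing.residue A ⟨a, ha⟩ := h2
  rw [← sub_eq_zero, ← map_sub, IsLocalRing.residue_eq_zero_iff] at h3
  exact coe_mem_nonunits_iff.mpr h3

/-- A Frobenius element at `A` stabilises `A` and acts as `a ↦ a ^ ℓ` modulo the maximal ideal. -/
theorem frobenius_spec (A : ValuationSubring Qbar) (σ : GQ) (ℓ : ℕ)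
    (hσ : A.IsFrobeniusAt σ ℓ) :
    (∀ a : Qbar, a ∈ A → σ a ∈ A) ∧ (∀ a : Qbar, a ∈ A → σ a - a ^ ℓ ∈ A.nonunits) := by
  obtain ⟨hd, hτ⟩ := hσ
  have hmem : ∀ a : Qbar, a ∈ A → σ a ∈ A := by
    intro a ha
    exact ((A.subMulAction ℚ).smul_mem (⟨σ, hd⟩ : A.decompositionSubgroup ℚ) ha)
  refine ⟨hmem, ?_⟩
  intro a ha
  have h2 := hτ (IsLocalRing.residue A ⟨a, ha⟩)
  have h3 : IsLocalRing.residue A ((⟨σ, hd⟩ : A.decompositionSubgroup ℚ) • (⟨a, ha⟩ : A))
      = IsLocalRing.residue A (⟨a, ha⟩ ^ ℓ) := by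
    rw [map_pow]; exact h2
  rw [← sub_eq_zero, ← map_sub, IsLocalRing.residue_eq_zero_iff] at h3
  exact coe_mem_nonunits_iff.mpr h3

theorem mem_of_pow_eq_one (A : ValuationSubring Qbar) {ζ : Qbar} {n : ℕ} (hn : 0 < n)
    (hζ : ζ ^ n = 1) : ζ ∈ A := by
  rcases A.mem_or_inv_mem ζ with h | h
  · exact h
  · have : ζ = (ζ⁻¹) ^ (n - 1) := by
      have hz : ζ ≠ 0 := by
        rintro rfl
        rw [zero_pow hn.ne'] at hζ
        exact zero_ne_one hζ
      have h1 : ζ ^ (n - 1) * ζ = 1 := by rw [← pow_succ, Nat.sub_add_cancel hn, hζ]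
      rw [inv_pow]
      field_simp
      rw [mul_comm]; exact h1.symm ▸ rfl
    rw [this]
    exact pow_mem h _

theorem mul_mem_nonunits_of_mem (A : ValuationSubring Qbar) {x y : Qbar} (hx : x ∈ A.nonunits)
    (hy : y ∈ A) : x * y ∈ A.nonunits := by
  rw [mem_nonunits_iff_exists_mem_maximalIdeal] at hx ⊢
  obtain ⟨hxA, hxm⟩ := hx
  exact ⟨A.mul_mem _ _ hxA hy, Ideal.mul_mem_right (⟨y, hy⟩ : A) _ hxm⟩

/-- Reduction modulo a place of residue characteristic `ℓ ≠ p` is injective on `p`-th roots of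
unity. -/
theorem eq_one_of_sub_one_mem_nonunits (A : ValuationSubring Qbar) {ℓ p : ℕ} (hp : p.Prime)
    (hℓ : ℓ.Prime) (hne : ℓ ≠ p) (hA : A.LiesOverPrime ℓ) {η : Qbar} (hη : η ^ p = 1)
    (h : η - 1 ∈ A.nonunits) : η = 1 := by
  by_contra hη1
  have hmem : η ∈ A := mem_of_pow_eq_one A hp.pos hη
  have hsum : ∑ i ∈ Finset.range p, η ^ i = 0 := by
    have h1 : (∑ i ∈ Finset.range p, η ^ i) * (η - 1) = 0 := by
      rw [geom_sum_mul, hη, sub_self]
    rcases mul_eq_zero.mp h1 with h2 | h2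
    · exact h2
    · exact absurd (sub_eq_zero.mp h2) hη1
  set r := IsLocalRing.residue A with hr
  have hr1 : r ⟨η, hmem⟩ = 1 := by
    have h3 : (⟨η, hmem⟩ - 1 : A) ∈ IsLocalRing.maximalIdeal A := by
      rw [← coe_mem_nonunits_iff]
      exact h
    have := (IsLocalRing.residue_eq_zero_iff _).mpr h3
    rw [map_sub, map_one, sub_eq_zero] at this
    exact this
  have hsumA : ∑ i ∈ Finset.range p, (⟨η, hmem⟩ : A) ^ i = 0 := by
    apply Subtype.ext
    push_cast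
    exact hsum
  have hp0 : (p : IsLocalRing.ResidueField A) = 0 := by
    have := congrArg r hsumA
    rw [map_sum, map_zero] at this
    simp only [map_pow, hr1, one_pow, Finset.sum_const, Finset.card_range, nsmul_eq_mul,
      mul_one] at this
    exact this
  have hℓ0 : (ℓ : IsLocalRing.ResidueField A) = 0 := by
    have h3 : ((ℓ : A)) ∈ IsLocalRing.maximalIdeal A := by
      rw [← coe_mem_nonunits_iff]
      have hA' : (ℓ : Qbar) ∈ A.nonunits := hA
      simpa using hA'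
    have := (IsLocalRing.residue_eq_zero_iff _).mpr h3
    simpa using this
  have hcop : Nat.Coprime ℓ p := (Nat.coprime_primes hℓ hp).mpr hne
  have h10 : ((1 : ℕ) : IsLocalRing.ResidueField A) = 0 := by
    have hb := Nat.gcd_eq_gcd_ab ℓ p
    rw [hcop.gcd_eq_one] at hb
    have := congrArg (fun z : ℤ => (z : IsLocalRing.ResidueField A)) hb
    simp only [Int.cast_add, Int.cast_mul, Int.cast_natCast, hp0, hℓ0, zero_mul, add_zero] at this
    exact_mod_cast this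
  simp at h10

variable (p : ℕ) [Fact p.Prime]

theorem cycloChar_spec (σ : GQ) {ζ : Qbar} (hζ : ζ ^ p = 1) :
    σ ζ = ζ ^ ((cycloChar p σ : (ZMod p)ˣ) : ZMod p).val := by
  have : NeZero p := ⟨(Fact.out : p.Prime).ne_zero⟩
  have hz : ζ ≠ 0 := by
    rintro rfl
    rw [zero_pow (Fact.out : p.Prime).ne_zero] at hζ
    exact zero_ne_one hζ
  have hmem : Units.mk0 ζ hz ∈ rootsOfUnity p Qbar := by
    rw [mem_rootsOfUnity]
    ext
    simpa using hζ
  have := modularCyclotomicCharacter.spec (L := Qbar) (card_rootsOfUnity_eq_self p)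
    (σ : Qbar ≃+* Qbar) hmem
  exact this

theorem exists_primitiveRoot : ∃ ζ : Qbar, IsPrimitiveRoot ζ p := by
  have : NeZero (p : Qbar) := ⟨Nat.cast_ne_zero.mpr (Fact.out : p.Prime).ne_zero⟩
  exact HasEnoughRootsOfUnity.exists_primitiveRoot Qbar p

theorem cycloChar_eq_natCast (σ : GQ) (c : ℕ) {ζ : Qbar} (hζ : IsPrimitiveRoot ζ p)
    (h : σ ζ = ζ ^ c) : ((cycloChar p σ : (ZMod p)ˣ) : ZMod p) = (c : ZMod p) := by
  have : NeZero p := ⟨(Fact.out : p.Prime).ne_zero⟩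
  have h1 := cycloChar_spec p σ hζ.pow_eq_one
  rw [h] at h1
  have hfin : IsOfFinOrder ζ := isOfFinOrder_iff_pow_eq_one.mpr ⟨p, (Fact.out : p.Prime).pos, hζ.pow_eq_one⟩
  have h2 := hfin.pow_eq_pow_iff_modEq.mp h1
  rw [← hζ.eq_orderOf] at h2
  have h3 : ((c : ℕ) : ZMod p) = ((((cycloChar p σ : (ZMod p)ˣ) : ZMod p).val : ℕ) : ZMod p) :=
    (ZMod.natCast_eq_natCast_iff _ _ _).mpr h2
  rw [h3, ZMod.natCast_val, ZMod.cast_id]

/-- The mod `p` cyclotomic character sends a Frobenius at `ℓ ≠ p` to `ℓ`. -/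
theorem cycloChar_frobenius (A : ValuationSubring Qbar) (σ : GQ) {ℓ : ℕ} (hℓ : ℓ.Prime)
    (hne : ℓ ≠ p) (hA : A.LiesOverPrime ℓ) (hσ : A.IsFrobeniusAt σ ℓ) :
    ((cycloChar p σ : (ZMod p)ˣ) : ZMod p) = (ℓ : ZMod p) := by
  obtain ⟨ζ, hζ⟩ := exists_primitiveRoot p
  have hp : p.Prime := Fact.out
  apply cycloChar_eq_natCast p σ ℓ hζ
  have hmem : ζ ∈ A := mem_of_pow_eq_one A hp.pos hζ.pow_eq_one
  have h1 := (frobenius_spec A σ ℓ hσ).2 ζ hmem
  have hz : ζ ≠ 0 := hζ.ne_zero hp.ne_zero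
  -- `η = σ ζ / ζ ^ ℓ`
  have hση : (σ ζ * (ζ ^ ℓ)⁻¹) ^ p = 1 := by
    rw [mul_pow, ← map_pow, hζ.pow_eq_one, map_one, one_mul, inv_pow, ← pow_mul, mul_comm,
      pow_mul, hζ.pow_eq_one, one_pow, inv_one]
  have hinv : (ζ ^ ℓ)⁻¹ ∈ A := by
    apply mem_of_pow_eq_one A hp.pos
    rw [inv_pow, ← pow_mul, mul_comm, pow_mul, hζ.pow_eq_one, one_pow, inv_one]
  have h2 : σ ζ * (ζ ^ ℓ)⁻¹ - 1 ∈ A.nonunits := by
    have : σ ζ * (ζ ^ ℓ)⁻¹ - 1 = (σ ζ - ζ ^ ℓ) * (ζ ^ ℓ)⁻¹ := by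
      field_simp
    rw [this]
    exact mul_mem_nonunits_of_mem A h1 hinv
  have h3 := eq_one_of_sub_one_mem_nonunits A hp hℓ hne hA hση h2
  field_simp at h3
  exact h3

/-- The mod `p` cyclotomic character is trivial on inertia at `ℓ ≠ p`. -/
theorem cycloChar_inertia (A : ValuationSubring Qbar) (σ : GQ) {ℓ : ℕ} (hℓ : ℓ.Prime)
    (hne : ℓ ≠ p) (hA : A.LiesOverPrime ℓ) (hσ : σ ∈ A.inertiaSubgroupIn ℚ) :
    cycloChar p σ = 1 := by
  obtain ⟨ζ, hζ⟩ := exists_primitiveRoot p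
  have hp : p.Prime := Fact.out
  have key : ((cycloChar p σ : (ZMod p)ˣ) : ZMod p) = ((1 : ℕ) : ZMod p) := by
    apply cycloChar_eq_natCast p σ 1 hζ
    have hmem : ζ ∈ A := mem_of_pow_eq_one A hp.pos hζ.pow_eq_one
    have h1 := (inertia_spec A σ hσ).2 ζ hmem
    have hz : ζ ≠ 0 := hζ.ne_zero hp.ne_zero
    have hση : (σ ζ * ζ⁻¹) ^ p = 1 := by
      rw [mul_pow, ← map_pow, hζ.pow_eq_one, map_one, one_mul, inv_pow, hζ.pow_eq_one, inv_one]
    have hinv : ζ⁻¹ ∈ A := by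
      apply mem_of_pow_eq_one A hp.pos
      rw [inv_pow, hζ.pow_eq_one, inv_one]
    have h2 : σ ζ * ζ⁻¹ - 1 ∈ A.nonunits := by
      have : σ ζ * ζ⁻¹ - 1 = (σ ζ - ζ) * ζ⁻¹ := by
        field_simp
      rw [this]
      exact mul_mem_nonunits_of_mem A h1 hinv
    have h3 := eq_one_of_sub_one_mem_nonunits A hp hℓ hne hA hση h2
    field_simp at h3
    rw [pow_one]
    exact h3
  ext
  simpa using key

/-- The mod `p` cyclotomic character has finite level. -/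
theorem cycloChar_finiteLevel : GaloisFactorsThroughFiniteLevel (cycloChar p) := by
  obtain ⟨ζ, hζ⟩ := exists_primitiveRoot p
  have hp : p.Prime := Fact.out
  have hint : IsIntegral ℚ ζ := (hζ.isIntegral hp.pos).tower_top
  refine ⟨IntermediateField.adjoin ℚ {ζ}, IntermediateField.adjoin.finiteDimensional hint, ?_⟩
  intro σ hσ
  have h1 : σ ζ = ζ ^ 1 := by
    rw [pow_one]
    exact hσ ζ (IntermediateField.mem_adjoin_simple_self ℚ ζ)
  have key := cycloChar_eq_natCast p σ 1 hζ h1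
  ext
  simpa using key

end Fermat.Agent.GR.Asm
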