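import Mathlib

/-!
# GR / Asm : residue fields of `ℤ̄ = integralClosure ℤ ℂ` are algebraically closed
-/

set_option autoImplicit false

namespace Fermat.Agent.GR.Asm

open Polynomial

/-- The kernel of a ring homomorphism from `ℤ̄` to a field of positive characteristic is maximal. -/
theorem isMaximal_ker_of_charP {k : Type*} [Field k] (p : ℕ) [CharP k p] (hp : p.Prime)
    (φ : integralClosure ℤ ℂ →+* k) : (RingHom.ker φ).IsMaximal := by
  have hprime : (RingHom.ker φ).IsPrime := RingHom.ker_isPrime φ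
  apply Ideal.isMaximal_of_isIntegral_of_isMaximal_comap (R := ℤ) (RingHom.ker φ)
  have hprime' : ((RingHom.ker φ).comap (algebraMap ℤ (integralClosure ℤ ℂ))).IsPrime :=
    Ideal.comap_isPrime _ _
  apply hprime'.isMaximal
  intro hbot
  have hmem : (p : ℤ) ∈ (RingHom.ker φ).comap (algebraMap ℤ (integralClosure ℤ ℂ)) := by
    rw [Ideal.mem_comap, RingHom.mem_ker]
    simp
  rw [hbot, Ideal.mem_bot] at hmem
  exact hp.ne_zero (by exact_mod_cast hmem)

/-- The residue fields of `ℤ̄` are algebraically closed. -/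
theorem isAlgClosed_quotient (𝔪 : Ideal (integralClosure ℤ ℂ)) [h𝔪 : 𝔪.IsMaximal] :
    letI := Ideal.Quotient.field 𝔪
    IsAlgClosed (integralClosure ℤ ℂ ⧸ 𝔪) := by
  letI := Ideal.Quotient.field 𝔪
  apply IsAlgClosed.of_exists_root
  intro P hP hirr
  have hl : P ∈ Polynomial.lifts (Ideal.Quotient.mk 𝔪) := by
    rw [Polynomial.mem_lifts]
    exact Polynomial.map_surjective _ Ideal.Quotient.mk_surjective P
  obtain ⟨Q, hQP, hQdeg, hQ⟩ := Polynomial.lifts_and_natDegree_eq_and_monic hl hP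
  have hdeg : (Q.map (algebraMap (integralClosure ℤ ℂ) ℂ)).degree ≠ 0 := by
    rw [hQ.degree_map, Polynomial.degree_eq_natDegree hQ.ne_zero, hQdeg]
    have := hirr.natDegree_pos
    exact_mod_cast this.ne'
  obtain ⟨z, hz⟩ := IsAlgClosed.exists_root _ hdeg
  have hz' : Polynomial.eval₂ (algebraMap (integralClosure ℤ ℂ) ℂ) z Q = 0 := by
    rwa [Polynomial.IsRoot.def, Polynomial.eval_map] at hz
  have hint : IsIntegral (integralClosure ℤ ℂ) z := ⟨Q, hQ, hz'⟩
  have hint' : IsIntegral ℤ z := isIntegral_trans z hint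
  refine ⟨Ideal.Quotient.mk 𝔪 ⟨z, hint'⟩, ?_⟩
  rw [← hQP, Polynomial.eval_map, Polynomial.eval₂_hom]
  have : Polynomial.eval (⟨z, hint'⟩ : integralClosure ℤ ℂ) Q = 0 := by
    apply Subtype.ext
    have h2 := Polynomial.eval₂_hom (algebraMap (integralClosure ℤ ℂ) ℂ) (p := Q)
      (⟨z, hint'⟩ : integralClosure ℤ ℂ)
    have h3 : algebraMap (integralClosure ℤ ℂ) ℂ ⟨z, hint'⟩ = z := rfl
    rw [h3, hz'] at h2
    exact h2.symm
  rw [this, map_zero]

end Fermat.Agent.GR.Asm
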