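import Mathlib
import Fermat.Prelude.Def_GaloisRep_Residual
import Fermat.Agent.GR.Quadratic
import Fermat.Agent.GR.Asm.Cyclo
import Fermat.Agent.GR.Asm.ResField

/-!
# GR / Asm : from an Eichler–Shimura module to a residual Galois representation

`HasESModule` is the output of the geometric blocks, `WeakChebotarev` the output of the analytic
block.  Together with the algebra block `Fermat.Agent.GR.exists_two_dim` they give the statement
of S29.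
-/

set_option autoImplicit false

namespace Fermat.Agent.GR.Asm

open ExtCitation ValuationSubring Polynomial

local notation "Qbar" => AlgebraicClosure ℚ
local notation "GQ" => (AlgebraicClosure ℚ ≃ₐ[ℚ] AlgebraicClosure ℚ)

/-- Output of the geometric blocks: a nonzero finite dimensional `κ`-representation of `G_ℚ` of
finite level, unramified outside `N p`, on which the Frobenius elements satisfy the
Eichler–Shimura relation of the eigenform `g`. -/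
def HasESModule (N : ℕ) (g : CuspForm (CongruenceSubgroup.Gamma0 N) 2) (p : ℕ)
    (κ : Type) [Field κ] (φ : integralClosure ℤ ℂ →+* κ) : Prop :=
  ∃ (V : Type) (_ : AddCommGroup V) (_ : Module κ V) (_ : FiniteDimensional κ V)
    (_ : Nontrivial V) (ρ : GQ →* Module.End κ V),
    GaloisFactorsThroughFiniteLevel ρ ∧
    (∀ ℓ : ℕ, ℓ.Prime → ¬ ℓ ∣ N * p → ∀ A : ValuationSubring Qbar, A.LiesOverPrime ℓ →
      ∀ σ ∈ A.inertiaSubgroupIn ℚ, ρ σ = 1) ∧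
    (∀ ℓ : ℕ, ℓ.Prime → ¬ ℓ ∣ N * p → ∀ A : ValuationSubring Qbar, A.LiesOverPrime ℓ →
      ∀ σ : GQ, A.IsFrobeniusAt σ ℓ →
        ∃ a : integralClosure ℤ ℂ, (a : ℂ) = ModularFormClass.qCoeff g ℓ ∧
          ρ σ * ρ σ - φ a • ρ σ + (ℓ : κ) • 1 = 0)

/-- Weak Chebotarev: modulo every number field, every element of `G_ℚ` is a power of a Frobenius
element at a prime outside a given finite set. -/
def WeakChebotarev : Prop :=
  ∀ (L : IntermediateField ℚ Qbar), FiniteDimensional ℚ L → ∀ (T : Finset ℕ) (g : GQ),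
    ∃ (ℓ : ℕ) (A : ValuationSubring Qbar) (σ : GQ) (j : ℕ), ℓ.Prime ∧ ℓ ∉ T ∧
      A.LiesOverPrime ℓ ∧ A.IsFrobeniusAt σ ℓ ∧ ∀ x ∈ L, (σ ^ j) x = g x

/-- The mod `p` cyclotomic character with values in a field of characteristic `p`. -/
noncomputable def cycloCharK (p : ℕ) [Fact p.Prime] (κ : Type) [Field κ] [CharP κ p] :
    GQ →* κˣ :=
  (Units.map ((ZMod.castHom (dvd_refl p) κ : ZMod p →+* κ) : ZMod p →* κ)).comp (cycloChar p)

theorem coe_cycloCharK (p : ℕ) [Fact p.Prime] (κ : Type) [Field κ] [CharP κ p] (σ : GQ) :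
    ((cycloCharK p κ σ : κˣ) : κ) =
      ZMod.castHom (dvd_refl p) κ ((cycloChar p σ : (ZMod p)ˣ) : ZMod p) := rfl

theorem cycloCharK_frobenius (p : ℕ) [Fact p.Prime] (κ : Type) [Field κ] [CharP κ p]
    (A : ValuationSubring Qbar) (σ : GQ) {ℓ : ℕ} (hℓ : ℓ.Prime)
    (hne : ℓ ≠ p) (hA : A.LiesOverPrime ℓ) (hσ : A.IsFrobeniusAt σ ℓ) :
    ((cycloCharK p κ σ : κˣ) : κ) = (ℓ : κ) := by
  rw [coe_cycloCharK, cycloChar_frobenius p A σ hℓ hne hA hσ, map_natCast]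

theorem cycloCharK_eq_one (p : ℕ) [Fact p.Prime] (κ : Type) [Field κ] [CharP κ p] {σ : GQ}
    (h : cycloChar p σ = 1) : cycloCharK p κ σ = 1 := by
  rw [cycloCharK, MonoidHom.comp_apply, h, map_one]

theorem not_dvd_mul_of_ne {N p ℓ : ℕ} (hp : p.Prime) (hℓ : ℓ.Prime) (hN : ¬ ℓ ∣ N) (hne : ℓ ≠ p) :
    ¬ ℓ ∣ N * p := by
  intro h
  rcases hℓ.dvd_mul.mp h with h | h
  · exact hN h
  · exact hne ((Nat.prime_dvd_prime_iff_eq hℓ hp).mp h)

theorem ne_of_not_dvd_mul {N p ℓ : ℕ} (h : ¬ ℓ ∣ N * p) : ℓ ≠ p := by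
  rintro rfl
  exact h (Dvd.intro_left N rfl)

/-- If `σ ^ j` and `g` agree on a level field of `ρ`, then `ρ g = ρ σ ^ j`. -/
theorem map_eq_pow_of_agree {M : Type} [Monoid M] (ρ : GQ →* M)
    (L : IntermediateField ℚ Qbar) (hL : ∀ σ : GQ, (∀ x ∈ L, σ x = x) → ρ σ = 1)
    (g σ : GQ) (j : ℕ) (h : ∀ x ∈ L, (σ ^ j) x = g x) : ρ g = ρ σ ^ j := by
  have h1 : ρ (g⁻¹ * σ ^ j) = 1 := by
    apply hL
    intro x hx
    rw [AlgEquiv.mul_apply, h x hx]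
    exact g.symm_apply_apply x
  have h2 : ρ (σ ^ j) = ρ g * ρ (g⁻¹ * σ ^ j) := by
    rw [← map_mul, mul_inv_cancel_left]
  rw [← map_pow, h2, h1, mul_one]

/-- **Residual representation from an Eichler–Shimura module** (algebraically closed
coefficients). -/
theorem exists_residualGaloisRep {N : ℕ} (hN : N ≠ 0)
    (g : CuspForm (CongruenceSubgroup.Gamma0 N) 2) (p : ℕ) [hp : Fact p.Prime]
    (κ : Type) [Field κ] [IsAlgClosed κ] [CharP κ p] (φ : integralClosure ℤ ℂ →+* κ)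
    (hcore : HasESModule N g p κ φ) (hcheb : WeakChebotarev) :
    ∃ ρ : ResidualGaloisRep κ, ρ.IsAttachedTo g φ ∧
      ∀ ℓ : ℕ, ℓ.Prime → ¬ ℓ ∣ N * p → ρ.IsUnramifiedAt ℓ := by
  obtain ⟨V, _, _, _, _, ρ, ⟨L1, hL1, h1⟩, hur, hES⟩ := hcore
  obtain ⟨L2, hL2, h2⟩ := cycloChar_finiteLevel p
  set χ := cycloCharK p κ with hχ
  have h2' : ∀ σ : GQ, (∀ x ∈ L2, σ x = x) → χ σ = 1 := fun σ hσ =>
    cycloCharK_eq_one p κ (h2 σ hσ)
  have hLfin : FiniteDimensional ℚ (L1 ⊔ L2 : IntermediateField ℚ Qbar) :=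
    IntermediateField.finiteDimensional_sup L1 L2
  let Φ : Set GQ := {σ | ∃ (ℓ : ℕ) (A : ValuationSubring Qbar), ℓ.Prime ∧ ¬ ℓ ∣ N * p ∧
    A.LiesOverPrime ℓ ∧ A.IsFrobeniusAt σ ℓ}
  have hΦ : ∀ g : GQ, ∃ f ∈ Φ, ∃ j : ℕ, ρ g = ρ f ^ j ∧ χ g = χ f ^ j := by
    intro γ
    obtain ⟨ℓ, A, σ, j, hℓ, hℓT, hA, hσ, hag⟩ := hcheb (L1 ⊔ L2) hLfin (N * p).primeFactors γ
    have hnd : ¬ ℓ ∣ N * p := by
      intro hd
      exact hℓT (Nat.mem_primeFactors.mpr ⟨hℓ, hd, Nat.mul_ne_zero hN hp.out.ne_zero⟩)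
    refine ⟨σ, ⟨ℓ, A, hℓ, hnd, hA, hσ⟩, j, ?_, ?_⟩
    · exact map_eq_pow_of_agree ρ L1 h1 γ σ j fun x hx => hag x ((le_sup_left : L1 ≤ L1 ⊔ L2) hx)
    · exact map_eq_pow_of_agree χ L2 h2' γ σ j
        fun x hx => hag x ((le_sup_right : L2 ≤ L1 ⊔ L2) hx)
  have hrelΦ : ∀ f ∈ Φ, ∃ a : κ, ρ f * ρ f - a • ρ f + ((χ f : κˣ) : κ) • 1 = 0 := by
    rintro f ⟨ℓ, A, hℓ, hnd, hA, hf⟩
    obtain ⟨a, -, ha⟩ := hES ℓ hℓ hnd A hA f hf
    refine ⟨φ a, ?_⟩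
    rw [hχ, cycloCharK_frobenius p κ A f hℓ (ne_of_not_dvd_mul hnd) hA hf]
    exact ha
  have hrel := rel_of_generators ρ χ Φ hΦ hrelΦ
  obtain ⟨W, _, _, _, ρ', hW, hchar, htriv⟩ := exists_two_dim ρ χ hrel
  refine ⟨{ V := W, finrank_eq := hW, ρ := ρ', factorsThroughFiniteLevel := ?_ }, ?_, ?_⟩
  · refine ⟨L1 ⊔ L2, hLfin, fun σ hσ => htriv σ ?_ ?_⟩
    · exact h1 σ fun x hx => hσ x ((le_sup_left : L1 ≤ L1 ⊔ L2) hx)
    · exact h2' σ fun x hx => hσ x ((le_sup_right : L2 ≤ L1 ⊔ L2) hx)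
  · intro ℓ hℓ hℓN hℓκ A hA σ hσ
    have hne : ℓ ≠ p := by
      rintro rfl
      exact hℓκ (CharP.cast_eq_zero κ ℓ)
    have hnd := not_dvd_mul_of_ne hp.out hℓ hℓN hne
    obtain ⟨a, ha, hrela⟩ := hES ℓ hℓ hnd A hA σ hσ
    refine ⟨a, ha, ?_⟩
    have hχσ := cycloCharK_frobenius p κ A σ hℓ hne hA hσ
    have := hchar σ (φ a) (by rw [hχ, hχσ]; exact hrela)
    rw [hχ, hχσ] at this
    exact this
  · intro ℓ hℓ hnd A hA σ hσ
    exact htriv σ (hur ℓ hℓ hnd A hA σ hσ)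
      (cycloCharK_eq_one p κ (cycloChar_inertia p A σ hℓ (ne_of_not_dvd_mul hnd) hA hσ))

end Fermat.Agent.GR.Asm
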