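import Mathlib
import Fermat.Prelude.Def_GaloisRep_Residual
import Fermat.Agent.GR.Asm.Residual

/-!
# GR / Asm : the statement of S29 from the core statement and weak Chebotarev
-/

set_option autoImplicit false

namespace Fermat.Agent.GR.Asm

open ExtCitation ValuationSubring Polynomial

local notation "Qbar" => AlgebraicClosure ℚ
local notation "GQ" => (AlgebraicClosure ℚ ≃ₐ[ℚ] AlgebraicClosure ℚ)
local notation "Zbar" => integralClosure ℤ ℂ

/-- The statement to be proved by the geometric blocks. -/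
def CoreStatement : Prop :=
  ∀ (N : ℕ), N ≠ 0 → ∀ (g : CuspForm (CongruenceSubgroup.Gamma0 N) 2), g.IsNormalizedEigenform →
    ∀ (p : ℕ), p.Prime → ∀ (𝔪 : Ideal Zbar) (_ : 𝔪.IsMaximal), (p : Zbar) ∈ 𝔪 →
      letI := Ideal.Quotient.field 𝔪
      HasESModule N g p (Zbar ⧸ 𝔪) (Ideal.Quotient.mk 𝔪)

theorem isAttachedTo_baseChangeAlong {k k' : Type} [Field k] [Field k'] (ι : k →+* k')
    (ρ : ResidualGaloisRep k) {N : ℕ} (g : CuspForm (CongruenceSubgroup.Gamma0 N) 2)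
    (φ : Zbar →+* k) (h : ρ.IsAttachedTo g φ) :
    (ρ.baseChangeAlong ι).IsAttachedTo g (ι.comp φ) := by
  intro ℓ hℓ hℓN hℓk A hA σ hσ
  have hℓk' : (ℓ : k) ≠ 0 := by
    intro h0
    apply hℓk
    rw [← map_natCast ι, h0, map_zero]
  obtain ⟨a, ha, hc⟩ := h ℓ hℓ hℓN hℓk' A hA σ hσ
  refine ⟨a, ha, ?_⟩
  letI : Algebra k k' := ι.toAlgebra
  have h1 : ((ρ.ρ σ).baseChange k').charpoly = (ρ.ρ σ).charpoly.map (algebraMap k k') :=
    LinearMap.charpoly_baseChange _ _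
  have h2 : LinearMap.charpoly ((ρ.baseChangeAlong ι).ρ σ) = ((ρ.ρ σ).baseChange k').charpoly :=
    rfl
  rw [h2, h1, hc]
  have h3 : algebraMap k k' = ι := rfl
  simp [h3]

theorem isUnramifiedAt_baseChangeAlong {k k' : Type} [Field k] [Field k'] (ι : k →+* k')
    (ρ : ResidualGaloisRep k) {q : ℕ} (h : ρ.IsUnramifiedAt q) :
    (ρ.baseChangeAlong ι).IsUnramifiedAt q := by
  intro A hA σ hσ
  letI : Algebra k k' := ι.toAlgebra
  have h2 : (ρ.baseChangeAlong ι).ρ σ = (ρ.ρ σ).baseChange k' := rfl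
  rw [h2, h A hA σ hσ, LinearMap.baseChange_one]
  rfl

/-- the trivial two dimensional representation -/
noncomputable def trivialRep (k : Type) [Field k] : ResidualGaloisRep k where
  V := Fin 2 → k
  finrank_eq := by simp
  ρ := 1
  factorsThroughFiniteLevel := ⟨⊥, inferInstance, fun _ _ => rfl⟩

/-- **The statement of S29**, from the core statement and weak Chebotarev. -/
theorem S29_of_core (hcore : CoreStatement) (hcheb : WeakChebotarev)
    {N : ℕ} {g : CuspForm (CongruenceSubgroup.Gamma0 N) 2} (hg : g.IsNormalizedEigenform)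
    {p : ℕ} (hp : p.Prime) {k : Type} [Field k] [CharP k p]
    (φ : integralClosure ℤ ℂ →+* k) :
    ∃ ρ : ResidualGaloisRep k, ρ.IsAttachedTo g φ ∧
      ∀ ℓ : ℕ, ℓ.Prime → ¬ ℓ ∣ N * p → ρ.IsUnramifiedAt ℓ := by
  rcases eq_or_ne N 0 with rfl | hN
  · refine ⟨trivialRep k, ?_, ?_⟩
    · intro ℓ _ h
      exact absurd (dvd_zero ℓ) h
    · intro ℓ _ _ A _ σ _
      rfl
  have h𝔪 : (RingHom.ker φ).IsMaximal := isMaximal_ker_of_charP p hp φ
  have hp𝔪 : (p : Zbar) ∈ RingHom.ker φ := by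
    rw [RingHom.mem_ker, map_natCast]
    exact CharP.cast_eq_zero k p
  letI := Ideal.Quotient.field (RingHom.ker φ)
  haveI : IsAlgClosed (Zbar ⧸ RingHom.ker φ) := isAlgClosed_quotient (RingHom.ker φ)
  haveI : Fact p.Prime := ⟨hp⟩
  haveI : CharP (Zbar ⧸ RingHom.ker φ) p := by
    rw [CharP.charP_iff_prime_eq_zero hp]
    have := Ideal.Quotient.eq_zero_iff_mem.mpr hp𝔪
    simpa using this
  obtain ⟨ρ, h1, h2⟩ := exists_residualGaloisRep hN g p (Zbar ⧸ RingHom.ker φ)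
    (Ideal.Quotient.mk (RingHom.ker φ)) (hcore N hN g hg p hp (RingHom.ker φ) h𝔪 hp𝔪) hcheb
  refine ⟨ρ.baseChangeAlong (RingHom.kerLift φ), ?_, ?_⟩
  · have h3 := isAttachedTo_baseChangeAlong (RingHom.kerLift φ) ρ g _ h1
    have h4 : (RingHom.kerLift φ).comp (Ideal.Quotient.mk (RingHom.ker φ)) = φ := by
      ext x
      rfl
    rwa [h4] at h3
  · intro ℓ hℓ hnd
    exact isUnramifiedAt_baseChangeAlong _ ρ (h2 ℓ hℓ hnd)

end Fermat.Agent.GR.Asm
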