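import Mathlib

/-!
# GR / Asm : homomorphisms `Γ → κ` as tensors `κ ⊗ Hom(Γ, F)`

`F ⊆ κ` fields, `Γ` a finitely generated group, `W ≤ Hom(Γ, F)` a subspace cut out by the vanishing
on a set `S ⊆ Γ`.  The evaluation map `κ ⊗[F] W → (Γ → κ)` is injective, and its image contains
every homomorphism `Γ → κ` vanishing on `S`.
-/

set_option autoImplicit false

namespace Fermat.Agent.GR.Asm

open TensorProduct

variable {F κ Γ : Type*} [Field F] [Field κ] [Algebra F κ] [Group Γ]

/-- `Q ↦ (γ ↦ Q γ ∈ κ)`. -/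
noncomputable def evalHom (κ : Type*) [Field κ] [Algebra F κ] (W : Submodule F (Additive Γ →+ F)) :
    W →ₗ[F] (Γ → κ) where
  toFun Q γ := algebraMap F κ ((Q : Additive Γ →+ F) (Additive.ofMul γ))
  map_add' Q Q' := by ext γ; simp
  map_smul' c Q := by ext γ; simp [Algebra.smul_def]

/-- the evaluation map `κ ⊗ W → (Γ → κ)`. -/
noncomputable def evalT (κ : Type*) [Field κ] [Algebra F κ] (W : Submodule F (Additive Γ →+ F)) :
    κ ⊗[F] W →ₗ[κ] (Γ → κ) :=
  (evalHom κ W).liftBaseChange κ

theorem evalT_tmul (W : Submodule F (Additive Γ →+ F)) (c : κ) (Q : W) (γ : Γ) :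
    evalT κ W (c ⊗ₜ Q) γ = c * algebraMap F κ ((Q : Additive Γ →+ F) (Additive.ofMul γ)) := rfl

theorem evalT_injective (W : Submodule F (Additive Γ →+ F)) :
    Function.Injective (evalT κ W) := by
  classical
  rw [injective_iff_map_eq_zero]
  intro t ht
  let ℬ := Module.Basis.ofVectorSpace F κ
  obtain ⟨b, rfl⟩ := TensorProduct.eq_repr_basis_left ℬ t
  have hb : b = 0 := by
    ext i : 1
    refine Subtype.ext (DFunLike.ext _ _ fun γ => ?_)
    have h1 := congrFun ht (Additive.toMul γ)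
    rw [Finsupp.sum, map_sum, Finset.sum_apply] at h1
    simp only [evalT_tmul, Pi.zero_apply, ofMul_toMul] at h1
    have h2 : ∑ j ∈ b.support, ((b j : Additive Γ →+ F) γ) • ℬ j = 0 := by
      rw [← h1]
      refine Finset.sum_congr rfl fun j _ => ?_
      rw [Algebra.smul_def, mul_comm]
    have h3 := linearIndependent_iff'.1 ℬ.linearIndependent b.support
      (fun j => (b j : Additive Γ →+ F) γ) h2
    by_cases hi : i ∈ b.support
    · simpa using h3 i hi
    · rw [Finsupp.notMem_support_iff.1 hi]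
      rfl
  rw [hb]
  simp

/-- a homomorphism vanishing on a generating set is zero. -/
theorem hom_eq_zero_of_closure {A : Type*} [AddCommGroup A] (X : Set Γ)
    (hX : Subgroup.closure X = ⊤) (Q : Additive Γ →+ A)
    (h : ∀ x ∈ X, Q (Additive.ofMul x) = 0) : Q = 0 := by
  refine DFunLike.ext _ _ fun γ => ?_
  have hγ : Additive.toMul γ ∈ Subgroup.closure X := by rw [hX]; trivial
  have key : ∀ y ∈ Subgroup.closure X, Q (Additive.ofMul y) = 0 := by
    intro y hy
    induction hy using Subgroup.closure_induction with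
    | mem x hx => exact h x hx
    | one => exact map_zero Q
    | mul a b _ _ ha hb => rw [ofMul_mul, map_add, ha, hb, add_zero]
    | inv a _ ha => rw [ofMul_inv, map_neg, ha, neg_zero]
  exact key _ hγ

theorem exists_tensor_of_hom [Group.FG Γ] (W : Submodule F (Additive Γ →+ F)) (S : Set Γ)
    (hW : ∀ Q : Additive Γ →+ F, (∀ s ∈ S, Q (Additive.ofMul s) = 0) → Q ∈ W)
    (P : Additive Γ →+ κ) (hP : ∀ s ∈ S, P (Additive.ofMul s) = 0) :
    ∃ t : κ ⊗[F] W, ∀ γ : Γ, evalT κ W t γ = P (Additive.ofMul γ) := by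
  classical
  let ℬ := Module.Basis.ofVectorSpace F κ
  obtain ⟨X, hX⟩ := Group.fg_def.1 (inferInstance : Group.FG Γ)
  let Q : _ → (Additive Γ →+ F) := fun i => (ℬ.coord i).toAddMonoidHom.comp P
  have hQ : ∀ i γ, Q i γ = ℬ.repr (P γ) i := fun i γ => rfl
  have hQW : ∀ i, Q i ∈ W := by
    intro i
    apply hW
    intro s hs
    rw [hQ, hP s hs, map_zero]
    rfl
  let I : Finset _ := X.biUnion fun x => (ℬ.repr (P (Additive.ofMul x))).support
  have hI : ∀ i, i ∉ I → Q i = 0 := by
    intro i hi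
    apply hom_eq_zero_of_closure (X : Set Γ) hX
    intro x hx
    rw [hQ]
    by_contra hne
    exact hi (Finset.mem_biUnion.2 ⟨x, hx, Finsupp.mem_support_iff.2 hne⟩)
  refine ⟨∑ i ∈ I, ℬ i ⊗ₜ[F] (⟨Q i, hQW i⟩ : W), fun γ => ?_⟩
  rw [map_sum, Finset.sum_apply]
  simp only [evalT_tmul]
  have hsub : (ℬ.repr (P (Additive.ofMul γ))).support ⊆ I := by
    intro i hi
    by_contra hiI
    have := hI i hiI
    rw [Finsupp.mem_support_iff, ← hQ, this] at hi
    exact hi rfl
  have h1 := ℬ.linearCombination_repr (P (Additive.ofMul γ))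
  rw [Finsupp.linearCombination_apply, Finsupp.sum_of_support_subset _ hsub (fun i a => a • ℬ i)
    (fun i _ => zero_smul _ _)] at h1
  rw [← h1]
  refine Finset.sum_congr rfl fun i _ => ?_
  rw [Algebra.smul_def, mul_comm, hQ]

/-- compatibility of the evaluation map with operators of "transfer type". -/
theorem evalT_baseChange {ι : Type*} [Fintype ι] (W : Submodule F (Additive Γ →+ F))
    (c : Γ → ι → Γ) (T₀ : W →ₗ[F] W)
    (hT₀ : ∀ (Q : W) (γ : Γ), ((T₀ Q : W) : Additive Γ →+ F) (Additive.ofMul γ)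
      = ∑ i, (Q : Additive Γ →+ F) (Additive.ofMul (c γ i)))
    (t : κ ⊗[F] W) (γ : Γ) :
    evalT κ W (T₀.baseChange κ t) γ = ∑ i, evalT κ W t (c γ i) := by
  induction t using TensorProduct.induction_on with
  | zero => simp
  | tmul a Q =>
    rw [LinearMap.baseChange_tmul, evalT_tmul, hT₀, map_sum, Finset.mul_sum]
    rfl
  | add x y hx hy =>
    simp only [map_add, Pi.add_apply, hx, hy, Finset.sum_add_distrib]

end Fermat.Agent.GR.Asm
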