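import Mathlib
import Fermat.Agent.GR.Quadratic
import Fermat.Agent.S53.Burnside
import Fermat.Agent.GR.Adic.TraceRigid

/-!
# GR / Asm : strengthened extraction of a two dimensional representation (F3′)

Same as `Fermat.Agent.GR.exists_two_dim`, but the two dimensional representation `ρ'` is trivial on
every `τ` with `χ τ = 1` such that right multiplication by `τ` does not change the "trace" `a(g)`.
This is what is needed to glue the auxiliary levels `4N` and `9N`.
-/

set_option autoImplicit false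

namespace Fermat.Agent.GR.Asm

open Polynomial Fermat.Agent.GR

section Alg

variable {κ G U : Type*} [Field κ] [Group G] [AddCommGroup U] [Module κ U]

/-- Burnside in dimension two, group form. -/
theorem span_range_eq_top_of_irr [IsAlgClosed κ] (h2 : Module.finrank κ U = 2)
    (ρ : G →* Module.End κ U)
    (hirr : ∀ W : Submodule κ U, (∀ g, ∀ x ∈ W, ρ g x ∈ W) → W = ⊥ ∨ W = ⊤) :
    Submodule.span κ (Set.range ρ) = ⊤ := by
  have htop : Algebra.adjoin κ (Set.range ρ) = ⊤ := by
    apply Fermat.Agent.S53.subalgebra_eq_top_of_irreducible h2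
    intro W hW
    exact hirr W fun g x hx => hW (ρ g) (Algebra.subset_adjoin ⟨g, rfl⟩) x hx
  have h1 : Submonoid.closure (Set.range ρ) = MonoidHom.mrange ρ := by
    rw [← MonoidHom.coe_mrange, Submonoid.closure_eq]
  have h3 := Algebra.adjoin_eq_span κ (Set.range ρ)
  rw [htop, h1, MonoidHom.coe_mrange] at h3
  rw [← h3]
  rfl

/-- trace rigidity over an algebraically closed field. -/
theorem eq_one_of_trace_mul_eq_of_irr [IsAlgClosed κ] (h2 : Module.finrank κ U = 2)
    (ρ : G →* Module.End κ U)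
    (hirr : ∀ W : Submodule κ U, (∀ g, ∀ x ∈ W, ρ g x ∈ W) → W = ⊥ ∨ W = ⊤) (τ : G)
    (htr : ∀ g, LinearMap.trace κ U (ρ (g * τ)) = LinearMap.trace κ U (ρ g)) : ρ τ = 1 := by
  have : FiniteDimensional κ U := Module.finite_of_finrank_eq_succ h2
  rw [← sub_eq_zero]
  apply Fermat.Agent.GR.Adic.eq_zero_of_forall_trace_mul_eq_zero
  intro x
  have hx : x ∈ Submodule.span κ (Set.range ρ) := by
    rw [span_range_eq_top_of_irr h2 ρ hirr]; trivial
  induction hx using Submodule.span_induction with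
  | mem x hx =>
    obtain ⟨g, rfl⟩ := hx
    rw [mul_sub, mul_one, map_sub, ← map_mul, htr, sub_self]
  | zero => rw [zero_mul, map_zero]
  | add x y _ _ hx hy => rw [add_mul, map_add, hx, hy, add_zero]
  | smul a x _ hx => rw [smul_mul_assoc, map_smul, hx, smul_zero]

theorem trace_eq_of_charpoly_eq [FiniteDimensional κ U] (h2 : Module.finrank κ U = 2)
    (T : Module.End κ U) (a d : κ) (h : T.charpoly = X ^ 2 - C a * X + C d) :
    LinearMap.trace κ U T = a := by
  rw [charpoly_eq_of_finrank_two h2] at h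
  have := congrArg (fun P : κ[X] => P.coeff 1) h
  simpa [coeff_X_pow, coeff_C] using this

end Alg

section Extract

universe u

variable {G : Type*} {κ V : Type u} [Field κ] [Group G] [AddCommGroup V] [Module κ V]

/-- **(F3′)** -/
theorem exists_two_dim' [IsAlgClosed κ] [FiniteDimensional κ V] [Nontrivial V]
    (ρ : G →* Module.End κ V) (χ : G →* κˣ)
    (hrel : ∀ g, ∃ a : κ, ρ g * ρ g - a • ρ g + ((χ g : κˣ) : κ) • 1 = 0) :
    ∃ (W : Type u) (_ : AddCommGroup W) (_ : Module κ W) (_ : FiniteDimensional κ W)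
      (ρ' : G →* Module.End κ W), Module.finrank κ W = 2 ∧
      (∀ (g : G) (a : κ), ρ g * ρ g - a • ρ g + ((χ g : κˣ) : κ) • 1 = 0 →
        (ρ' g).charpoly = X ^ 2 - C a * X + C ((χ g : κˣ) : κ)) ∧
      (∀ τ, χ τ = 1 →
        (∀ (g : G) (a : κ), ρ g * ρ g - a • ρ g + ((χ g : κˣ) : κ) • 1 = 0 →
          ρ (g * τ) * ρ (g * τ) - a • ρ (g * τ) + ((χ (g * τ) : κˣ) : κ) • 1 = 0) →
        ρ' τ = 1) := by
  obtain ⟨U, hU0, hUinv, hUmin⟩ := exists_minimal_invariant ρ
  set ρU := restrictRep ρ U hUinv with hρU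
  have hrelU : ∀ (g : G) (a : κ), ρ g * ρ g - a • ρ g + ((χ g : κˣ) : κ) • 1 = 0 →
      ρU g * ρU g - a • ρU g + ((χ g : κˣ) : κ) • 1 = 0 := by
    intro g a ha
    ext x
    have h1 := congrArg (fun f : Module.End κ V => f (x : V)) ha
    simpa [hρU] using h1
  have hirrU : ∀ U' : Submodule κ U, (∀ g, ∀ x ∈ U', ρU g x ∈ U') → U' = ⊥ ∨ U' = ⊤ := by
    intro U' hU'
    rcases hUmin (U'.map U.subtype) (Submodule.map_subtype_le U U') (by
      rintro g _ ⟨x, hx, rfl⟩
      exact ⟨ρU g x, hU' g x hx, rfl⟩) with h | h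
    · left
      rw [eq_bot_iff]
      intro x hx
      have hx' : (x : V) ∈ U'.map U.subtype := ⟨x, hx, rfl⟩
      rw [h] at hx'
      exact (Submodule.mem_bot κ).2 (Subtype.ext ((Submodule.mem_bot κ).1 hx'))
    · right
      rw [eq_top_iff]
      intro x _
      have hx : (x : V) ∈ U'.map U.subtype := by rw [h]; exact x.2
      obtain ⟨y, hy, hyx⟩ := hx
      have : y = x := Subtype.ext hyx
      rwa [← this]
  have hle : Module.finrank κ U ≤ 2 :=
    finrank_le_two_of_quadratic ρU χ (fun g => (hrel g).imp fun a ha => hrelU g a ha) hirrU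
  have hpos : 0 < Module.finrank κ U := by
    rw [Module.finrank_pos_iff_exists_ne_zero]
    obtain ⟨x, hx, hx0⟩ := Submodule.exists_mem_ne_zero_of_ne_bot hU0
    exact ⟨⟨x, hx⟩, fun h => hx0 (congrArg Subtype.val h)⟩
  rcases (by omega : Module.finrank κ U = 2 ∨ Module.finrank κ U = 1) with h2 | h1
  · have hchar : ∀ (g : G) (a : κ), ρ g * ρ g - a • ρ g + ((χ g : κˣ) : κ) • 1 = 0 →
        (ρU g).charpoly = X ^ 2 - C a * X + C ((χ g : κˣ) : κ) := by
      intro g a ha
      exact charpoly_eq_of_quadratic ρU χ h2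
        (fun g => (hrel g).imp fun a ha => hrelU g a ha) hirrU g a (hrelU g a ha)
    refine ⟨U, inferInstance, inferInstance, inferInstance, ρU, h2, hchar, ?_⟩
    intro τ _ hτ
    apply eq_one_of_trace_mul_eq_of_irr h2 ρU hirrU τ
    intro g
    obtain ⟨a, ha⟩ := hrel g
    rw [trace_eq_of_charpoly_eq h2 _ a _ (hchar g a ha),
      trace_eq_of_charpoly_eq h2 _ a _ (hchar (g * τ) a (hτ g a ha))]
  · -- one dimensional case
    obtain ⟨u₀, hu₀⟩ : ∃ u₀ : U, u₀ ≠ 0 := Module.finrank_pos_iff_exists_ne_zero.1 hpos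
    have hspan := (finrank_eq_one_iff_of_nonzero' u₀ hu₀).1 h1
    choose ψ hψ using fun g => hspan (ρU g u₀)
    have hinj : ∀ c d : κ, c • u₀ = d • u₀ → c = d := by
      intro c d h
      have h3 : (c - d) • u₀ = 0 := by rw [sub_smul, h, sub_self]
      exact sub_eq_zero.1 ((smul_eq_zero.1 h3).resolve_right hu₀)
    have hψ1 : ψ 1 = 1 := by
      apply hinj
      rw [hψ, map_one, one_smul]; rfl
    have hψmul : ∀ g h, ψ (g * h) = ψ g * ψ h := by
      intro g h
      apply hinj
      rw [hψ, map_mul, Module.End.mul_apply, ← hψ h, map_smul, ← hψ g, smul_smul, mul_comm]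
    let ψ₁ : G →* κ := { toFun := ψ, map_one' := hψ1, map_mul' := hψmul }
    have hψne : ∀ g, ψ g ≠ 0 := by
      intro g h0
      have h3 := hψmul g g⁻¹
      rw [mul_inv_cancel, hψ1, h0, zero_mul] at h3
      exact one_ne_zero h3
    let ψ₂ : G →* κ :=
      { toFun := fun g => ((χ g : κˣ) : κ) * (ψ g)⁻¹
        map_one' := by simp [hψ1]
        map_mul' := fun g h => by
          simp only [map_mul, Units.val_mul, hψmul, mul_inv]
          ring }
    have hquad : ∀ (g : G) (a : κ), ρ g * ρ g - a • ρ g + ((χ g : κˣ) : κ) • 1 = 0 →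
        ψ g * ψ g - a * ψ g + ((χ g : κˣ) : κ) = 0 := by
      intro g a ha
      have h3 := congrArg (fun f : Module.End κ U => f u₀) (hrelU g a ha)
      simp only [LinearMap.add_apply, LinearMap.sub_apply, Module.End.mul_apply,
        LinearMap.smul_apply, Module.End.one_apply, LinearMap.zero_apply] at h3
      rw [← hψ g, map_smul, ← hψ g, smul_smul, smul_smul, ← sub_smul, ← add_smul] at h3
      exact (smul_eq_zero.1 h3).resolve_right hu₀
    refine ⟨κ × κ, inferInstance, inferInstance, inferInstance, diagRep ψ₁ ψ₂, ?_, ?_, ?_⟩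
    · rw [Module.finrank_prod, Module.finrank_self]
    · intro g a ha
      rw [charpoly_diagRep]
      have h4 := hquad g a ha
      have e1 : ψ₁ g + ψ₂ g = a := by
        show ψ g + ((χ g : κˣ) : κ) * (ψ g)⁻¹ = a
        have := hψne g
        field_simp
        linear_combination h4
      have e2 : ψ₁ g * ψ₂ g = ((χ g : κˣ) : κ) := by
        show ψ g * (((χ g : κˣ) : κ) * (ψ g)⁻¹) = _
        have := hψne g
        field_simp
      rw [e1, e2]
    · intro τ hχ hτ
      have h0 : ρ 1 * ρ 1 - (2 : κ) • ρ 1 + ((χ 1 : κˣ) : κ) • 1 = 0 := by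
        rw [map_one, map_one, Units.val_one, one_smul, mul_one, two_smul]
        abel
      have h4 := hquad (1 * τ) 2 (hτ 1 2 h0)
      rw [one_mul, hχ, Units.val_one] at h4
      have h3 : ψ τ = 1 := by
        have h5 : (ψ τ - 1) ^ 2 = 0 := by linear_combination h4
        exact sub_eq_zero.1 (pow_eq_zero_iff (two_ne_zero)|>.1 h5)
      ext <;> simp [diagRep, ψ₁, ψ₂, h3, hχ]

end Extract

end Fermat.Agent.GR.Asm
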