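import Mathlib
import Fermat.Prelude.Def_GaloisRep_Residual
import Fermat.Agent.GR.Asm.Residual
import Fermat.Agent.GR.Asm.GlueAlg

/-!
# GR / Asm : gluing two auxiliary levels

The geometric blocks produce Eichler–Shimura modules only at auxiliary levels `4N` and `9N`, i.e.
with sets of bad primes `4Np` and `9Np`.  Here we glue two such modules: from ES modules with bad
numbers `b₁`, `b₂` such that every common prime divisor divides `N p` we get the residual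
representation attached to `g`, unramified outside `N p`.
-/

set_option autoImplicit false

namespace Fermat.Agent.GR.Asm

open ExtCitation ValuationSubring Polynomial Fermat.Agent.GR

local notation "Qbar" => AlgebraicClosure ℚ
local notation "GQ" => (AlgebraicClosure ℚ ≃ₐ[ℚ] AlgebraicClosure ℚ)

/-- `HasESModule` with an explicit number `bad` whose prime divisors are the excluded primes. -/
def HasESModuleBad (N : ℕ) (g : CuspForm (CongruenceSubgroup.Gamma0 N) 2) (bad : ℕ)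
    (κ : Type) [Field κ] (φ : integralClosure ℤ ℂ →+* κ) : Prop :=
  ∃ (V : Type) (_ : AddCommGroup V) (_ : Module κ V) (_ : FiniteDimensional κ V)
    (_ : Nontrivial V) (ρ : GQ →* Module.End κ V),
    GaloisFactorsThroughFiniteLevel ρ ∧
    (∀ ℓ : ℕ, ℓ.Prime → ¬ ℓ ∣ bad → ∀ A : ValuationSubring Qbar, A.LiesOverPrime ℓ →
      ∀ σ ∈ A.inertiaSubgroupIn ℚ, ρ σ = 1) ∧
    (∀ ℓ : ℕ, ℓ.Prime → ¬ ℓ ∣ bad → ∀ A : ValuationSubring Qbar, A.LiesOverPrime ℓ →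
      ∀ σ : GQ, A.IsFrobeniusAt σ ℓ →
        ∃ a : integralClosure ℤ ℂ, (a : ℂ) = ModularFormClass.qCoeff g ℓ ∧
          ρ σ * ρ σ - φ a • ρ σ + (ℓ : κ) • 1 = 0)

section Prod

variable {κ G V₁ V₂ : Type*} [Field κ] [Group G] [AddCommGroup V₁] [Module κ V₁]
  [AddCommGroup V₂] [Module κ V₂]

/-- direct sum of two representations. -/
def prodRep (ρ₁ : G →* Module.End κ V₁) (ρ₂ : G →* Module.End κ V₂) :
    G →* Module.End κ (V₁ × V₂) where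
  toFun g := LinearMap.prodMap (ρ₁ g) (ρ₂ g)
  map_one' := by ext <;> simp
  map_mul' g h := by ext <;> simp

theorem prodRep_apply (ρ₁ : G →* Module.End κ V₁) (ρ₂ : G →* Module.End κ V₂) (g : G) :
    prodRep ρ₁ ρ₂ g = LinearMap.prodMap (ρ₁ g) (ρ₂ g) := rfl

theorem rel_prodMap_iff (x₁ : Module.End κ V₁) (x₂ : Module.End κ V₂) (a c : κ) :
    (LinearMap.prodMap x₁ x₂ : Module.End κ (V₁ × V₂)) * LinearMap.prodMap x₁ x₂
        - a • (LinearMap.prodMap x₁ x₂ : Module.End κ (V₁ × V₂)) + c • 1 = 0 ↔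
      (x₁ * x₁ - a • x₁ + c • 1 = 0 ∧ x₂ * x₂ - a • x₂ + c • 1 = 0) := by
  constructor
  · intro h
    constructor
    · ext v
      have := congrArg (fun f : Module.End κ (V₁ × V₂) => (f (v, 0)).1) h
      simpa using this
    · ext v
      have := congrArg (fun f : Module.End κ (V₁ × V₂) => (f (0, v)).2) h
      simpa using this
  · rintro ⟨h₁, h₂⟩
    ext v
    · have := congrArg (fun f : Module.End κ V₁ => f v) h₁
      simpa using this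
    · simp
    · simp
    · have := congrArg (fun f : Module.End κ V₂ => f v) h₂
      simpa using this

/-- the coefficient `a` of the quadratic relation is unique. -/
theorem rel_unique {V : Type*} [AddCommGroup V] [Module κ V] [Nontrivial V]
    (ρ : G →* Module.End κ V) (g : G) {a a' c : κ}
    (h : ρ g * ρ g - a • ρ g + c • 1 = 0) (h' : ρ g * ρ g - a' • ρ g + c • 1 = 0) : a = a' := by
  by_contra hne
  have h1 : (a - a') • ρ g = 0 := by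
    rw [sub_smul]
    have := sub_eq_zero.2 (h'.trans h.symm)
    rw [← this]
    abel
  have h2 : ρ g = 0 := (smul_eq_zero.1 h1).resolve_left (sub_ne_zero.2 hne)
  have h3 : ρ g * ρ g⁻¹ = 1 := by rw [← map_mul, mul_inv_cancel, map_one]
  rw [h2, zero_mul] at h3
  exact zero_ne_one h3

end Prod

section Abstract

universe u

variable {G : Type*} {κ V₁ V₂ : Type u} [Field κ] [Group G] [AddCommGroup V₁] [Module κ V₁]
  [AddCommGroup V₂] [Module κ V₂]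

/-- abstract gluing: if every element satisfies a quadratic relation on `V₁ × V₂`, there is a two
dimensional representation whose characteristic polynomials can be read off on either factor and
which is trivial on every `τ ∈ ker χ` acting trivially on one of the factors. -/
theorem exists_two_dim_glue [IsAlgClosed κ] [FiniteDimensional κ V₁] [FiniteDimensional κ V₂]
    [Nontrivial V₁] [Nontrivial V₂]
    (ρ₁ : G →* Module.End κ V₁) (ρ₂ : G →* Module.End κ V₂) (χ : G →* κˣ)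
    (hrel : ∀ g, ∃ a : κ, prodRep ρ₁ ρ₂ g * prodRep ρ₁ ρ₂ g - a • prodRep ρ₁ ρ₂ g
      + ((χ g : κˣ) : κ) • 1 = 0) :
    ∃ (W : Type u) (_ : AddCommGroup W) (_ : Module κ W) (_ : FiniteDimensional κ W)
      (ρ' : G →* Module.End κ W), Module.finrank κ W = 2 ∧
      (∀ (g : G) (a : κ), ρ₁ g * ρ₁ g - a • ρ₁ g + ((χ g : κˣ) : κ) • 1 = 0 →
        (ρ' g).charpoly = X ^ 2 - C a * X + C ((χ g : κˣ) : κ)) ∧
      (∀ (g : G) (a : κ), ρ₂ g * ρ₂ g - a • ρ₂ g + ((χ g : κˣ) : κ) • 1 = 0 →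
        (ρ' g).charpoly = X ^ 2 - C a * X + C ((χ g : κˣ) : κ)) ∧
      (∀ τ, χ τ = 1 → ρ₁ τ = 1 → ρ' τ = 1) ∧ (∀ τ, χ τ = 1 → ρ₂ τ = 1 → ρ' τ = 1) := by
  have hsplit : ∀ (γ : G) (a : κ), prodRep ρ₁ ρ₂ γ * prodRep ρ₁ ρ₂ γ - a • prodRep ρ₁ ρ₂ γ
        + ((χ γ : κˣ) : κ) • 1 = 0 ↔
      (ρ₁ γ * ρ₁ γ - a • ρ₁ γ + ((χ γ : κˣ) : κ) • 1 = 0 ∧
        ρ₂ γ * ρ₂ γ - a • ρ₂ γ + ((χ γ : κˣ) : κ) • 1 = 0) := by
    intro γ a
    rw [prodRep_apply, rel_prodMap_iff]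
  have hprop₁ : ∀ (γ : G) (a : κ), ρ₁ γ * ρ₁ γ - a • ρ₁ γ + ((χ γ : κˣ) : κ) • 1 = 0 →
      prodRep ρ₁ ρ₂ γ * prodRep ρ₁ ρ₂ γ - a • prodRep ρ₁ ρ₂ γ + ((χ γ : κˣ) : κ) • 1 = 0 := by
    intro γ a ha
    obtain ⟨a', ha'⟩ := hrel γ
    have := rel_unique ρ₁ γ ha ((hsplit γ a').1 ha').1
    rw [this]; exact ha'
  have hprop₂ : ∀ (γ : G) (a : κ), ρ₂ γ * ρ₂ γ - a • ρ₂ γ + ((χ γ : κˣ) : κ) • 1 = 0 →
      prodRep ρ₁ ρ₂ γ * prodRep ρ₁ ρ₂ γ - a • prodRep ρ₁ ρ₂ γ + ((χ γ : κˣ) : κ) • 1 = 0 := by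
    intro γ a ha
    obtain ⟨a', ha'⟩ := hrel γ
    have := rel_unique ρ₂ γ ha ((hsplit γ a').1 ha').2
    rw [this]; exact ha'
  obtain ⟨W, i1, i2, i3, ρ', hW, hchar, htriv⟩ := exists_two_dim' (prodRep ρ₁ ρ₂) χ hrel
  refine ⟨W, i1, i2, i3, ρ', hW, fun g a ha => hchar g a (hprop₁ g a ha),
    fun g a ha => hchar g a (hprop₂ g a ha), ?_, ?_⟩
  · intro τ hχ hτ
    refine htriv τ hχ fun γ a ha => hprop₁ _ _ ?_
    rw [map_mul, map_mul, hτ, hχ, mul_one, mul_one]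
    exact ((hsplit γ a).1 ha).1
  · intro τ hχ hτ
    refine htriv τ hχ fun γ a ha => hprop₂ _ _ ?_
    rw [map_mul, map_mul, hτ, hχ, mul_one, mul_one]
    exact ((hsplit γ a).1 ha).2

end Abstract

/-- every element of `G_ℚ` satisfies a quadratic relation on the sum of two ES modules. -/
theorem rel_prodRep_of_cheb {N : ℕ}
    (g : CuspForm (CongruenceSubgroup.Gamma0 N) 2) (p : ℕ) [hp : Fact p.Prime]
    (κ : Type) [Field κ] [CharP κ p] (φ : integralClosure ℤ ℂ →+* κ)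
    (b₁ b₂ : ℕ) (hb₁ : b₁ ≠ 0) (hb₂ : b₂ ≠ 0) (hp₁ : p ∣ b₁)
    {V₁ V₂ : Type} [AddCommGroup V₁] [Module κ V₁] [AddCommGroup V₂] [Module κ V₂]
    (ρ₁ : GQ →* Module.End κ V₁) (ρ₂ : GQ →* Module.End κ V₂)
    (hl₁ : GaloisFactorsThroughFiniteLevel ρ₁) (hl₂ : GaloisFactorsThroughFiniteLevel ρ₂)
    (hES₁ : ∀ ℓ : ℕ, ℓ.Prime → ¬ ℓ ∣ b₁ → ∀ A : ValuationSubring Qbar, A.LiesOverPrime ℓ →
      ∀ σ : GQ, A.IsFrobeniusAt σ ℓ →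
        ∃ a : integralClosure ℤ ℂ, (a : ℂ) = ModularFormClass.qCoeff g ℓ ∧
          ρ₁ σ * ρ₁ σ - φ a • ρ₁ σ + (ℓ : κ) • 1 = 0)
    (hES₂ : ∀ ℓ : ℕ, ℓ.Prime → ¬ ℓ ∣ b₂ → ∀ A : ValuationSubring Qbar, A.LiesOverPrime ℓ →
      ∀ σ : GQ, A.IsFrobeniusAt σ ℓ →
        ∃ a : integralClosure ℤ ℂ, (a : ℂ) = ModularFormClass.qCoeff g ℓ ∧
          ρ₂ σ * ρ₂ σ - φ a • ρ₂ σ + (ℓ : κ) • 1 = 0)
    (hcheb : WeakChebotarev) :
    ∀ γ : GQ, ∃ a : κ, prodRep ρ₁ ρ₂ γ * prodRep ρ₁ ρ₂ γ - a • prodRep ρ₁ ρ₂ γ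
      + ((cycloCharK p κ γ : κˣ) : κ) • 1 = 0 := by
  obtain ⟨L₁, hL₁, h₁⟩ := hl₁
  obtain ⟨L₂, hL₂, h₂⟩ := hl₂
  obtain ⟨L₃, hL₃, h₃⟩ := cycloChar_finiteLevel p
  have h₃' : ∀ σ : GQ, (∀ x ∈ L₃, σ x = x) → cycloCharK p κ σ = 1 := fun σ hσ =>
    cycloCharK_eq_one p κ (h₃ σ hσ)
  have hLfin : FiniteDimensional ℚ (L₁ ⊔ L₂ ⊔ L₃ : IntermediateField ℚ Qbar) := by
    have : FiniteDimensional ℚ (L₁ ⊔ L₂ : IntermediateField ℚ Qbar) :=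
      IntermediateField.finiteDimensional_sup L₁ L₂
    exact IntermediateField.finiteDimensional_sup (L₁ ⊔ L₂) L₃
  have hle₁ : L₁ ≤ L₁ ⊔ L₂ ⊔ L₃ := le_sup_left.trans le_sup_left
  have hle₂ : L₂ ≤ L₁ ⊔ L₂ ⊔ L₃ := le_sup_right.trans le_sup_left
  have hle₃ : L₃ ≤ L₁ ⊔ L₂ ⊔ L₃ := le_sup_right
  let Φ : Set GQ := {σ | ∃ (ℓ : ℕ) (A : ValuationSubring Qbar), ℓ.Prime ∧ ¬ ℓ ∣ b₁ ∧ ¬ ℓ ∣ b₂ ∧
    A.LiesOverPrime ℓ ∧ A.IsFrobeniusAt σ ℓ}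
  refine rel_of_generators (prodRep ρ₁ ρ₂) (cycloCharK p κ) Φ ?_ ?_
  · intro γ
    obtain ⟨ℓ, A, σ, j, hℓ, hℓT, hA, hσ, hag⟩ :=
      hcheb (L₁ ⊔ L₂ ⊔ L₃) hLfin (b₁ * b₂).primeFactors γ
    have hnd : ¬ ℓ ∣ b₁ * b₂ := by
      intro hd
      exact hℓT (Nat.mem_primeFactors.mpr ⟨hℓ, hd, Nat.mul_ne_zero hb₁ hb₂⟩)
    refine ⟨σ, ⟨ℓ, A, hℓ, fun h => hnd (h.mul_right _), fun h => hnd (h.mul_left _), hA, hσ⟩,
      j, ?_, ?_⟩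
    · refine map_eq_pow_of_agree (prodRep ρ₁ ρ₂) (L₁ ⊔ L₂ ⊔ L₃) ?_ γ σ j hag
      intro τ hτ
      rw [prodRep_apply, h₁ τ fun x hx => hτ x (hle₁ hx), h₂ τ fun x hx => hτ x (hle₂ hx)]
      ext <;> simp
    · exact map_eq_pow_of_agree (cycloCharK p κ) L₃ h₃' γ σ j fun x hx => hag x (hle₃ hx)
  · rintro f ⟨ℓ, A, hℓ, hnd₁, hnd₂, hA, hf⟩
    obtain ⟨a, haC, ha⟩ := hES₁ ℓ hℓ hnd₁ A hA f hf
    obtain ⟨a', haC', ha'⟩ := hES₂ ℓ hℓ hnd₂ A hA f hf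
    have haa : a' = a := Subtype.ext (haC'.trans haC.symm)
    have hne : ℓ ≠ p := by
      rintro rfl
      exact hnd₁ hp₁
    refine ⟨φ a, ?_⟩
    rw [cycloCharK_frobenius p κ A f hℓ hne hA hf, prodRep_apply, rel_prodMap_iff]
    exact ⟨ha, haa ▸ ha'⟩

/-- **Gluing.** -/
theorem exists_residualGaloisRep_glue {N : ℕ}
    (g : CuspForm (CongruenceSubgroup.Gamma0 N) 2) (p : ℕ) [hp : Fact p.Prime]
    (κ : Type) [Field κ] [IsAlgClosed κ] [CharP κ p] (φ : integralClosure ℤ ℂ →+* κ)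
    (b₁ b₂ : ℕ) (hb₁ : b₁ ≠ 0) (hb₂ : b₂ ≠ 0) (hp₁ : p ∣ b₁)
    (hb : ∀ ℓ : ℕ, ℓ.Prime → ℓ ∣ b₁ → ℓ ∣ b₂ → ℓ ∣ N * p)
    (hc₁ : HasESModuleBad N g b₁ κ φ) (hc₂ : HasESModuleBad N g b₂ κ φ)
    (hcheb : WeakChebotarev) :
    ∃ ρ : ResidualGaloisRep κ, ρ.IsAttachedTo g φ ∧
      ∀ ℓ : ℕ, ℓ.Prime → ¬ ℓ ∣ N * p → ρ.IsUnramifiedAt ℓ := by
  obtain ⟨V₁, _, _, _, _, ρ₁, hl₁, hur₁, hES₁⟩ := hc₁
  obtain ⟨V₂, _, _, _, _, ρ₂, hl₂, hur₂, hES₂⟩ := hc₂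
  have hrel := rel_prodRep_of_cheb g p κ φ b₁ b₂ hb₁ hb₂ hp₁ ρ₁ ρ₂ hl₁ hl₂ hES₁ hES₂ hcheb
  obtain ⟨W, _, _, _, ρ', hW, hchar₁, hchar₂, htriv₁, htriv₂⟩ :=
    exists_two_dim_glue ρ₁ ρ₂ (cycloCharK p κ) hrel
  obtain ⟨L₁, hL₁, h₁⟩ := hl₁
  obtain ⟨L₃, hL₃, h₃⟩ := cycloChar_finiteLevel p
  have hcase : ∀ ℓ : ℕ, ℓ.Prime → ¬ ℓ ∣ N * p → ¬ ℓ ∣ b₁ ∨ ¬ ℓ ∣ b₂ := by
    intro ℓ hℓ hnd
    by_contra hcon
    rw [not_or, not_not, not_not] at hcon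
    exact hnd (hb ℓ hℓ hcon.1 hcon.2)
  refine ⟨{ V := W, finrank_eq := hW, ρ := ρ', factorsThroughFiniteLevel := ?_ }, ?_, ?_⟩
  · refine ⟨L₁ ⊔ L₃, IntermediateField.finiteDimensional_sup L₁ L₃, fun σ hσ => htriv₁ σ ?_ ?_⟩
    · exact cycloCharK_eq_one p κ (h₃ σ fun x hx => hσ x ((le_sup_right : L₃ ≤ L₁ ⊔ L₃) hx))
    · exact h₁ σ fun x hx => hσ x ((le_sup_left : L₁ ≤ L₁ ⊔ L₃) hx)
  · intro ℓ hℓ hℓN hℓκ A hA σ hσ
    have hne : ℓ ≠ p := by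
      rintro rfl
      exact hℓκ (CharP.cast_eq_zero κ ℓ)
    have hnd := not_dvd_mul_of_ne hp.out hℓ hℓN hne
    have hχσ := cycloCharK_frobenius p κ A σ hℓ hne hA hσ
    rcases hcase ℓ hℓ hnd with hnd' | hnd'
    · obtain ⟨a, ha, hrela⟩ := hES₁ ℓ hℓ hnd' A hA σ hσ
      refine ⟨a, ha, ?_⟩
      have := hchar₁ σ (φ a) (by rw [hχσ]; exact hrela)
      rw [hχσ] at this
      exact this
    · obtain ⟨a, ha, hrela⟩ := hES₂ ℓ hℓ hnd' A hA σ hσ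
      refine ⟨a, ha, ?_⟩
      have := hchar₂ σ (φ a) (by rw [hχσ]; exact hrela)
      rw [hχσ] at this
      exact this
  · intro ℓ hℓ hnd A hA σ hσ
    have hχσ : cycloCharK p κ σ = 1 :=
      cycloCharK_eq_one p κ (cycloChar_inertia p A σ hℓ (ne_of_not_dvd_mul hnd) hA hσ)
    rcases hcase ℓ hℓ hnd with hnd' | hnd'
    · exact htriv₁ σ hχσ (hur₁ ℓ hℓ hnd' A hA σ hσ)
    · exact htriv₂ σ hχσ (hur₂ ℓ hℓ hnd' A hA σ hσ)

end Fermat.Agent.GR.Asm
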