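import Mathlib
import Fermat.Prelude.Def_GaloisRep_Residual
import Fermat.Agent.S13.Tors

/-!
# GR / Asm : the Galois action on `E[n]` has finite level
-/

set_option autoImplicit false

namespace Fermat.Agent.GR.Asm

open WeierstrassCurve WeierstrassCurve.Affine WeierstrassCurve.Affine.Point

local notation "Qbar" => AlgebraicClosure ℚ
local notation "GQ" => (AlgebraicClosure ℚ ≃ₐ[ℚ] AlgebraicClosure ℚ)

/-- the coordinates of a point -/
def coordSet {K : Type*} [Field K] {W : Affine K} : W.Point → Set K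
  | .zero => ∅
  | .some x y _ => {x, y}

theorem finite_coordSet {K : Type*} [Field K] {W : Affine K} (P : W.Point) :
    (coordSet P).Finite := by
  cases P with
  | zero => exact Set.finite_empty
  | some x y h => exact (Set.finite_singleton y).insert x

theorem galoisRep_finiteLevel [DecidableEq Qbar] (W : WeierstrassCurve ℚ) (n : ℕ)
    (hfin : Finite (Submodule.torsionBy ℤ (W⁄Qbar).Point n)) :
    GaloisFactorsThroughFiniteLevel (galoisRepModuleEnd (K := Qbar) ℚ W n) := by
  classical
  let S : Set Qbar := ⋃ P : Submodule.torsionBy ℤ (W⁄Qbar).Point n, coordSet (P : (W⁄Qbar).Point)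
  have hS : S.Finite := Set.finite_iUnion fun P => finite_coordSet _
  haveI : Finite S := hS.to_subtype
  have halg : Algebra.IsAlgebraic ℚ Qbar := AlgebraicClosure.isAlgebraic ℚ
  refine ⟨IntermediateField.adjoin ℚ S,
    IntermediateField.finiteDimensional_adjoin fun x _ => (halg.isAlgebraic x).isIntegral, ?_⟩
  intro σ hσ
  ext P
  rw [galoisRepModuleEnd_apply]
  have hP : ∀ z ∈ coordSet (P : (W⁄Qbar).Point), σ z = z := fun z hz =>
    hσ z (IntermediateField.subset_adjoin ℚ S (Set.mem_iUnion.mpr ⟨P, hz⟩))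
  change ((σ • P : Submodule.torsionBy ℤ (W⁄Qbar).Point n) : (W⁄Qbar).Point) = _
  have h1 : ((σ • P : Submodule.torsionBy ℤ (W⁄Qbar).Point n) : (W⁄Qbar).Point)
      = Point.map σ.toAlgHom (P : (W⁄Qbar).Point) := rfl
  rw [h1]
  simp only [Module.End.one_apply]
  generalize (P : (W⁄Qbar).Point) = Q at hP
  cases Q with
  | zero => rfl
  | some x y h =>
    have hx : σ x = x := hP x (by simp [coordSet])
    have hy : σ y = y := hP y (by simp [coordSet])
    rw [Point.map_some]
    simp [hx, hy]

theorem finite_torsionBy_odd [DecidableEq Qbar] (W : WeierstrassCurve ℚ) (p : ℕ) (hodd : Odd p)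
    (h3 : 3 ≤ p) : Finite (Submodule.torsionBy ℤ (W⁄Qbar).Point p) := by
  obtain ⟨m, rfl⟩ := hodd
  have hm : 1 ≤ m := by omega
  have hp : ((2 * m + 1 : ℕ) : Qbar) ≠ 0 := Nat.cast_ne_zero.mpr (by omega)
  have := Fermat.Agent.S13.finite_torsion (W.baseChange Qbar) m hm hp
  refine Finite.of_injective
    (fun P : Submodule.torsionBy ℤ (W⁄Qbar).Point ((2 * m + 1 : ℕ)) =>
      (⟨(P : (W⁄Qbar).Point), by
        have h := P.2
        rw [Submodule.mem_torsionBy_iff] at h
        exact_mod_cast h⟩ :
        {P : (W.baseChange Qbar).toAffine.Point // (2 * m + 1) • P = 0})) ?_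
  intro P Q h
  exact Subtype.ext (congrArg Subtype.val h)

end Fermat.Agent.GR.Asm
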