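import Mathlib
import Fermat.Prelude.Def_GaloisRep_Residual
import Fermat.Prelude.Def_FreyPackage_EigenformResidualAttachment
import Fermat.Agent.GR.Quadratic
import Fermat.Agent.GR.Asm.ResField
import Fermat.Agent.GR.Asm.TorsLevel

/-!
# GR / Asm : the statement of S42 from the statement of S29
-/

set_option autoImplicit false
set_option linter.style.haveILetI false

namespace Fermat.Agent.GR.Asm

open Polynomial WeierstrassCurve WeierstrassCurve.Affine.Point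

local notation "Qbar" => AlgebraicClosure ℚ
local notation "GQ" => (AlgebraicClosure ℚ ≃ₐ[ℚ] AlgebraicClosure ℚ)
local notation "Zbar" => integralClosure ℤ ℂ

/-- The statement of S29. -/
def Statement29 : Prop :=
  ∀ {N : ℕ} {g : CuspForm (CongruenceSubgroup.Gamma0 N) 2} (_ : g.IsNormalizedEigenform)
    {p : ℕ} (_ : p.Prime) {k : Type} [Field k] [CharP k p]
    (φ : integralClosure ℤ ℂ →+* k),
    ∃ ρ : ResidualGaloisRep k, ρ.IsAttachedTo g φ ∧
      ∀ ℓ : ℕ, ℓ.Prime → ¬ ℓ ∣ N * p → ρ.IsUnramifiedAt ℓ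

theorem trace_det_of_charpoly {κ W : Type*} [Field κ] [AddCommGroup W] [Module κ W]
    [FiniteDimensional κ W]
    (h2 : Module.finrank κ W = 2) (T : Module.End κ W) {a d : κ}
    (h : T.charpoly = X ^ 2 - C a * X + C d) :
    LinearMap.trace κ W T = a ∧ LinearMap.det T = d := by
  rw [Fermat.Agent.GR.charpoly_eq_of_finrank_two h2 T] at h
  have h1 := congrArg (fun P : κ[X] => P.coeff 1) h
  have h0 := congrArg (fun P : κ[X] => P.coeff 0) h
  simp [coeff_X, coeff_C] at h1 h0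
  exact ⟨h1, h0⟩

theorem fixes_of_mem_ker_restrictNormalHom (F : IntermediateField ℚ Qbar) [Normal ℚ F] (σ : GQ)
    (hσ : σ ∈ (AlgEquiv.restrictNormalHom (F := ℚ) (K₁ := Qbar) F).ker) :
    ∀ x ∈ F, σ x = x := by
  intro x hx
  have h1 : AlgEquiv.restrictNormalHom (F := ℚ) (K₁ := Qbar) F σ = 1 := hσ
  have h2 := AlgEquiv.restrictNormal_commutes σ F ⟨x, hx⟩
  have h3 : σ.restrictNormal F = 1 := h1
  rw [h3] at h2
  exact h2.symm

/-- **The statement of S42**, from the statement of S29. -/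
theorem S42_of_S29 (h29 : Statement29) (P : FreyPackage) :
    ∀ M : ℕ, 0 < M → P.EigenformResidualAttachmentAt M := by
  intro M _ g hg 𝔪 h𝔪 hp𝔪
  letI := Ideal.Quotient.field 𝔪
  haveI : CharP (Zbar ⧸ 𝔪) P.p := by
    rw [CharP.charP_iff_prime_eq_zero P.pp]
    have := Ideal.Quotient.eq_zero_iff_mem.mpr hp𝔪
    simpa using this
  obtain ⟨ρ, hatt, -⟩ := h29 hg P.pp (Ideal.Quotient.mk 𝔪)
  obtain ⟨L1, hL1, h1⟩ := ρ.factorsThroughFiniteLevel
  obtain ⟨L2, hL2, h2⟩ := galoisRep_finiteLevel P.freyCurve P.p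
    (finite_torsionBy_odd P.freyCurve P.p P.hp_odd (by have := P.hp5; omega))
  haveI hLfin : FiniteDimensional ℚ (L1 ⊔ L2 : IntermediateField ℚ Qbar) :=
    IntermediateField.finiteDimensional_sup L1 L2
  haveI : Algebra.IsAlgebraic ℚ Qbar := AlgebraicClosure.isAlgebraic ℚ
  haveI : IsAlgClosure ℚ Qbar := ⟨inferInstance, inferInstance⟩
  haveI : Normal ℚ Qbar := IsAlgClosure.normal ℚ Qbar
  let F : IntermediateField ℚ Qbar :=
    IntermediateField.normalClosure ℚ (L1 ⊔ L2 : IntermediateField ℚ Qbar) Qbar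
  have hle : L1 ⊔ L2 ≤ F := IntermediateField.le_normalClosure _
  haveI hFfin : FiniteDimensional ℚ F := normalClosure.is_finiteDimensional ℚ _ Qbar
  haveI hFn : Normal ℚ F := normalClosure.normal ℚ _ Qbar
  haveI : NumberField F := { to_charZero := inferInstance, to_finiteDimensional := hFfin }
  haveI : IsGalois ℚ F := { }
  have hne : ∀ ℓ : ℕ, ℓ.Prime → ℓ ≠ P.p → (ℓ : Zbar ⧸ 𝔪) ≠ 0 := by
    intro ℓ hℓ hne h0
    have := (CharP.cast_eq_zero_iff (Zbar ⧸ 𝔪) P.p ℓ).mp h0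
    exact hne ((Nat.prime_dvd_prime_iff_eq P.pp hℓ).mp this).symm
  refine ⟨Zbar ⧸ 𝔪, inferInstance, ZMod.algebra _ P.p, ρ.V, inferInstance, inferInstance, ρ.ρ,
    Ideal.Quotient.mk 𝔪, F, inferInstance, inferInstance, inferInstance, inferInstance,
    inferInstance, ?_, ρ.finrank_eq, ?_, ?_, ?_⟩
  · rw [Ideal.mk_ker]
  · intro σ hσ
    have hfix := fixes_of_mem_ker_restrictNormalHom F σ hσ
    refine ⟨?_, ?_⟩
    · exact h2 σ fun x hx => hfix x (hle ((le_sup_right : L2 ≤ L1 ⊔ L2) hx))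
    · exact h1 σ fun x hx => hfix x (hle ((le_sup_left : L1 ≤ L1 ⊔ L2) hx))
  · intro ℓ hℓ hℓM hℓp A hA τ hτ
    obtain ⟨a, ha, hc⟩ := hatt ℓ hℓ hℓM (hne ℓ hℓ hℓp) A hA τ hτ
    exact ⟨a, ha, (trace_det_of_charpoly ρ.finrank_eq _ hc).1⟩
  · intro ℓ hℓ hℓM hℓp A hA τ hτ
    obtain ⟨a, ha, hc⟩ := hatt ℓ hℓ hℓM (hne ℓ hℓ hℓp) A hA τ hτ
    exact (trace_det_of_charpoly ρ.finrank_eq _ hc).2

end Fermat.Agent.GR.Asm
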